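import Mathlib
import Fermat.Agent.S48.B.B1.Seams
import Fermat.Agent.S48.B.B1.RepRel1
import Fermat.Agent.S24.Degree
import Fermat.Agent.S24.Counting.Lift

/-!
# PROJECT D (S48), block B1, brick Deg (helper2), part 1: the upper bound `RepLe M → DegLe M`

Every element of `ℂ·F1 M ⊆ repSet1 M` satisfies a relation of degree `≤ card (Q1 M)` over `ℂ[j]`
(`RepRel1`), main's linear disjointness (`S24/LinDisjoint`) descends it to `ℚ̄`, and main's
`DegreeAlg.finrank_le_of_relations` bounds the degree of `ℚ̄(X₁(M))` over `ℚ̄(j)`.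

Also here: the generators `genF M` of `ℚ̄(X₁(M))`, `coe_jgen1`, `transcendental_jgen1`, and the base
change of coefficients along an arbitrary ring homomorphism.
-/

set_option autoImplicit false
set_option linter.unusedSectionVars false

noncomputable section

namespace Fermat.Agent.S48.B.B1.Degree1.Upper

open Polynomial ModularCurve IntermediateField
open Fermat.Agent.S24.DegreeAlg Fermat.Agent.S48.B.Defs.Model Fermat.Agent.S48.B.B1.Seams
open scoped MatrixGroups

local notation "Kb" => AlgebraicClosure ℚ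

/-! ### Base change of the coefficients along a ring homomorphism -/

section BaseChange

variable {L L' : Type*} [Field L] [Field L'] [Algebra ℚ L] [Algebra ℚ L'] (ι : L →+* L')

theorem coeffMap_coeffEmb_hom (x : LaurentSeries ℚ) :
    coeffMap ι (coeffEmb L x) = coeffEmb L' x := by
  rw [coeffEmb, coeffEmb, coeffMap_coeffMap]
  exact coeffMap_congr (Subsingleton.elim _ _) x

theorem coeffMap_algebraMap_hom (a : L) :
    coeffMap ι (algebraMap L (LaurentSeries L) a) = algebraMap L' (LaurentSeries L') (ι a) := by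
  rw [algebraMap_laurentSeries_eq_single, algebraMap_laurentSeries_eq_single, coeffMap_single]

theorem coeffMap_mem_laurentBaseChange_hom {F₀ : IntermediateField ℚ (LaurentSeries ℚ)}
    {x : LaurentSeries L} (hx : x ∈ laurentBaseChange L F₀) :
    coeffMap ι x ∈ laurentBaseChange L' F₀ := by
  rw [mem_laurentBaseChange_iff] at hx
  induction hx using Subfield.closure_induction with
  | mem y hy =>
      rcases hy with ⟨a, rfl⟩ | ⟨z, hz, rfl⟩
      · rw [coeffMap_algebraMap_hom]
        exact (laurentBaseChange L' F₀).algebraMap_mem _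
      · rw [coeffMap_coeffEmb_hom]
        exact coeffEmb_mem_laurentBaseChange L' hz
  | one => rw [map_one]; exact one_mem _
  | add x y _ _ hx hy => rw [map_add]; exact add_mem hx hy
  | neg x _ hx => rw [map_neg]; exact neg_mem hx
  | inv x _ hx => rw [map_inv₀]; exact inv_mem hx
  | mul x y _ _ hx hy => rw [map_mul]; exact mul_mem hx hy

end BaseChange

/-! ### Generators of `ℚ̄(X₁(M))` -/

section Generators

variable (M : ℕ) [NeZero M]

/-- the index set of the generators: the divisors of `M` and the nonzero residues -/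
abbrev Idx : Type := {d : ℕ // d ∣ M} ⊕ {a : ZMod M // a ≠ 0}

instance finite_Idx : Finite (Idx M) := by
  have : Finite {d : ℕ // d ∣ M} := finite_dvd M
  infer_instance

/-- the generators `j(q^d)`, `h_a` as Laurent series over `L` -/
def genL (L : Type*) [Field L] [Algebra ℚ L] : Idx M → LaurentSeries L
  | Sum.inl d => jdiv L M d
  | Sum.inr a => coeffEmb L (frickeH ℚ M a.1)

theorem genL_mem (i : Idx M) : genL M Kb i ∈ F1Bar M := by
  rcases i with d | a
  · have : NeZero d.1 := neZero_of_dvd d.2
    exact coeffEmb_mem_laurentBaseChange Kb (jqd_mem_F1 M d.2)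
  · exact coeffEmb_mem_laurentBaseChange Kb (frickeH_mem_F1 M a.2)

theorem F1Bar_eq_adjoin :
    F1Bar M = IntermediateField.adjoin Kb (Set.range (genL M Kb)) := by
  apply le_antisymm
  · show laurentBaseChange Kb (F1 M) ≤ _
    rw [laurentBaseChange, IntermediateField.adjoin_le_iff]
    rintro _ ⟨y, hy, rfl⟩
    change y ∈ IntermediateField.adjoin ℚ (divisorExpansions M ∪ frickeGenerators M) at hy
    induction hy using IntermediateField.adjoin_induction with
    | mem x hx =>
      rcases hx with hx | hx
      · obtain ⟨d, hne, hdvd, rfl⟩ := hx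
        exact IntermediateField.subset_adjoin Kb _ ⟨Sum.inl ⟨d, hdvd⟩, rfl⟩
      · obtain ⟨a, ha, rfl⟩ := hx
        exact IntermediateField.subset_adjoin Kb _ ⟨Sum.inr ⟨a, ha⟩, rfl⟩
    | algebraMap r =>
      rw [SetLike.mem_coe, coeffEmb_algebraMap]
      exact IntermediateField.algebraMap_mem _ _
    | add x y _ _ hx hy => rw [SetLike.mem_coe, map_add]; exact add_mem hx hy
    | inv x _ hx => rw [SetLike.mem_coe, map_inv₀]; exact inv_mem hx
    | mul x y _ _ hx hy => rw [SetLike.mem_coe, map_mul]; exact mul_mem hx hy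
  · rw [IntermediateField.adjoin_le_iff]
    rintro _ ⟨i, rfl⟩
    exact genL_mem M i

/-- the generators as elements of the function field -/
def genF (i : Idx M) : F1Bar M := ⟨genL M Kb i, genL_mem M i⟩

theorem adjoin_range_genF_eq_top :
    IntermediateField.adjoin Kb (Set.range (genF M)) = ⊤ := by
  have h1 : (IntermediateField.adjoin Kb (Set.range (genF M))).map (F1Bar M).val
      = F1Bar M := by
    rw [IntermediateField.adjoin_map, ← Set.range_comp]
    exact (F1Bar_eq_adjoin M).symm
  have h2 : (⊤ : IntermediateField Kb (F1Bar M)).map (F1Bar M).val = F1Bar M := by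
    rw [← AlgHom.fieldRange_eq_map, IntermediateField.fieldRange_val]
  exact IntermediateField.map_injective _ (h1.trans h2.symm)

theorem coe_jgen1 : ((jgen1 M : F1Bar M) : LaurentSeries Kb) = coeffEmb Kb jq := by
  show ((IntermediateField.inclusion (laurentBaseChange_mono Kb (full_le_F1 M)) (jgen M) :
    F1Bar M) : LaurentSeries Kb) = _
  rw [IntermediateField.coe_inclusion, coe_jgen]

theorem jgen1_eq_genF : jgen1 M = genF M (Sum.inl ⟨1, one_dvd M⟩) := by
  apply Subtype.ext
  rw [coe_jgen1]
  exact (jdiv_one Kb M).symm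

theorem jgen1_mem_adjoin : jgen1 M ∈ Algebra.adjoin Kb (Set.range (genF M)) := by
  rw [jgen1_eq_genF]
  exact Algebra.subset_adjoin ⟨_, rfl⟩

theorem transcendental_jgen1 : Transcendental Kb (jgen1 M) := by
  rw [transcendental_iff]
  intro p hp
  have h := transcendental_iff.mp (transcendental_coeffEmb_jq Kb) p
  apply h
  have := congrArg (F1Bar M).val hp
  rw [← Polynomial.aeval_algHom_apply, map_zero] at this
  rw [← coe_jgen1 M]
  exact this

/-- evaluation of a two-variable polynomial commutes with the inclusion into `ℚ̄((q))` -/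
theorem coe_eval₂_bar (x r : F1Bar M) (P : Polynomial (Polynomial Kb)) :
    ((Polynomial.eval₂ (Polynomial.aeval x : Polynomial Kb →ₐ[Kb] _).toRingHom r P :
        F1Bar M) : LaurentSeries Kb)
      = Polynomial.eval₂ (Polynomial.aeval (x : LaurentSeries Kb) :
          Polynomial Kb →ₐ[Kb] LaurentSeries Kb).toRingHom (r : LaurentSeries Kb) P := by
  have := Polynomial.hom_eval₂ P (Polynomial.aeval x : Polynomial Kb →ₐ[Kb] _).toRingHom
    ((F1Bar M).val : _ →+* LaurentSeries Kb) r
  refine this.trans ?_
  congr 1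
  refine RingHom.ext fun s => ?_
  exact (Polynomial.aeval_algHom_apply (F1Bar M).val x s).symm

end Generators

/-! ### The upper bound -/

section Upper

open Fermat.Agent.S24.LmapJ Fermat.Agent.S30.Analytic.RepFieldEq Fermat.Agent.S24.Degree

variable (M : ℕ) [NeZero M]

/-- every element of `ℚ̄(X₁(M))` satisfies a nonzero relation of degree `≤ card (Q1 M)` over
`ℚ̄[j]` -/
theorem exists_relation_bar (h : RepLe M) (r : F1Bar M) :
    ∃ Q : Polynomial (Polynomial Kb), Q ≠ 0 ∧ Q.natDegree ≤ Nat.card (Q1 M) ∧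
      Polynomial.eval₂ (Polynomial.aeval (jgen1 M) : Polynomial Kb →ₐ[Kb] F1Bar M).toRingHom
        r Q = 0 := by
  obtain ⟨ι⟩ := exists_embedding
  have hmem : coeffMap ι (r : LaurentSeries Kb) ∈ laurentBaseChange ℂ (F1 M) :=
    coeffMap_mem_laurentBaseChange_hom ι r.2
  obtain ⟨P, hP0, hPd, hP⟩ := RepRel1.exists_relation_of_mem_repSet1 M (h hmem)
  have hj : coeffMap ι (coeffEmb Kb jq) = jC := by
    rw [coeffMap_coeffEmb_hom, jC]
  have hP' : P.eval₂ ((Polynomial.aeval (coeffMap ι (coeffEmb Kb jq) : LaurentSeries ℂ) :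
      Polynomial ℂ →ₐ[ℂ] LaurentSeries ℂ) : Polynomial ℂ →+* LaurentSeries ℂ)
      (coeffMap ι (r : LaurentSeries Kb) : LaurentSeries ℂ) = 0 := by
    rw [hj]
    exact hP
  obtain ⟨Q, hQ0, hQd, hQ⟩ := Fermat.Agent.S24.LinDisjoint.exists_rel_over_base' ι
    (coeffEmb Kb jq) (r : LaurentSeries Kb) P hP0 hP'
  refine ⟨Q, hQ0, hQd.trans hPd, ?_⟩
  apply Subtype.ext
  rw [coe_eval₂_bar, coe_jgen1]
  exact hQ

/-- **[Deg], upper bound.** -/
theorem degLe_of_repLe (h : RepLe M) : DegLe M :=
  finrank_le_of_relations (genF M) (adjoin_range_genF_eq_top M) (jgen1 M)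
    (jgen1_mem_adjoin M) (transcendental_jgen1 M) (Nat.card (Q1 M))
    (fun r _ => exists_relation_bar M h r)

end Upper

end Fermat.Agent.S48.B.B1.Degree1.Upper
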