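import Mathlib
import Fermat.Agent.S48.B.B1.Seams
import Fermat.Agent.S48.B.B1.RepHom1
import Fermat.Agent.S24.Counting.Lift

/-!
# PROJECT D (S48), block B1, brick Deg (helper2), part 2: the index of `±Γ₁(M)`

`[SL₂(ℤ) : ±Γ₁(M)] = [SL₂(ℤ) : Γ₀(M)] · |(ℤ/M)ˣ / ±1|` for every `M ≥ 1`: the lower right entry
`Γ₀(M) → (ℤ/M)ˣ → (ℤ/M)ˣ / ±1` is surjective (main's `Counting/Lift.exists_SL2_col_mod`) with kernel
`±Γ₁(M)`.
-/

set_option autoImplicit false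

noncomputable section

namespace Fermat.Agent.S48.B.B1.Degree1.Index

open CongruenceSubgroup Fermat.Agent.S48.B.B1.Seams Fermat.Agent.S48.B.B1.RepHom1
open scoped MatrixGroups

variable (M : ℕ) [NeZero M]

/-- `{±1} ⊆ (ℤ/M)ˣ` -/
abbrev pm : Subgroup (ZMod M)ˣ := Subgroup.zpowers (-1 : (ZMod M)ˣ)

omit [NeZero M] in
theorem mem_pm {u : (ZMod M)ˣ} : u ∈ pm M ↔ u = 1 ∨ u = -1 := by
  constructor
  · intro h
    obtain ⟨k, rfl⟩ := Subgroup.mem_zpowers_iff.mp h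
    rcases Int.even_or_odd k with hk | hk
    · exact Or.inl hk.neg_one_zpow
    · exact Or.inr hk.neg_one_zpow
  · rintro (rfl | rfl)
    · exact Subgroup.one_mem _
    · exact Subgroup.mem_zpowers _

/-- the lower right entry `Γ₀(M) → (ℤ/M)ˣ` -/
def theta0 : Gamma0 M →* (ZMod M)ˣ := (Gamma0Map M).toHomUnits

omit [NeZero M] in
theorem coe_theta0 (γ : Gamma0 M) :
    ((theta0 M γ : (ZMod M)ˣ) : ZMod M) = (((γ : SL(2, ℤ)) 1 1 : ℤ) : ZMod M) := rfl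

/-- the lower right entry up to sign -/
def theta : Gamma0 M →* (ZMod M)ˣ ⧸ pm M := (QuotientGroup.mk' (pm M)).comp (theta0 M)

omit [NeZero M] in
theorem det_mod (g : SL(2, ℤ)) :
    ((g 0 0 : ℤ) : ZMod M) * ((g 1 1 : ℤ) : ZMod M) -
      ((g 0 1 : ℤ) : ZMod M) * ((g 1 0 : ℤ) : ZMod M) = 1 := by
  have hdet : g 0 0 * g 1 1 - g 0 1 * g 1 0 = 1 := by
    have := g.det_coe
    rwa [Matrix.det_fin_two] at this
  have := congrArg (Int.cast : ℤ → ZMod M) hdet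
  push_cast at this
  exact this

theorem theta0_surjective : Function.Surjective (theta0 M) := by
  intro d
  have hcop : IsCoprime ((d⁻¹ : (ZMod M)ˣ) : ZMod M) 0 :=
    isCoprime_zero_right.mpr (Units.isUnit _)
  obtain ⟨g, hg0, hg1⟩ := Fermat.Agent.S24.Counting.Lift.exists_SL2_col_mod M _ _ hcop
  have hg : g ∈ Gamma0 M := Gamma0_mem.mpr hg1
  refine ⟨⟨g, hg⟩, Units.ext ?_⟩
  rw [coe_theta0]
  have hdet := det_mod M g
  rw [hg0, hg1, mul_zero, sub_zero] at hdet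
  calc ((g 1 1 : ℤ) : ZMod M) = (d : ZMod M) * (((d⁻¹ : (ZMod M)ˣ) : ZMod M) * ((g 1 1 : ℤ) : ZMod M)) := by
        rw [← mul_assoc, ← Units.val_mul, mul_inv_cancel, Units.val_one, one_mul]
    _ = (d : ZMod M) := by rw [hdet, mul_one]

theorem theta_surjective : Function.Surjective (theta M) :=
  (QuotientGroup.mk'_surjective (pm M)).comp (theta0_surjective M)

omit [NeZero M] in
theorem neg_one_mem_Gamma0 : (-1 : SL(2, ℤ)) ∈ Gamma0 M := by
  rw [Gamma0_mem]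
  simp

omit [NeZero M] in
theorem PG1_le_Gamma0 : PG1 M ≤ Gamma0 M :=
  sup_le (Gamma1_in_Gamma0 M) ((Subgroup.zpowers_le).mpr (neg_one_mem_Gamma0 M))

omit [NeZero M] in
/-- for a matrix of `Γ₀(M)`, membership in `Γ₁(M)` is decided by the lower right entry -/
theorem mem_Gamma1_iff_of_mem_Gamma0 {A : SL(2, ℤ)} (hA : A ∈ Gamma0 M) :
    A ∈ Gamma1 M ↔ ((A 1 1 : ℤ) : ZMod M) = 1 := by
  rw [Gamma1_mem]
  constructor
  · exact fun h => h.2.1
  · intro h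
    have hdet := det_mod M A
    rw [Gamma0_mem.mp hA, h, mul_zero, sub_zero, mul_one] at hdet
    exact ⟨hdet, h, Gamma0_mem.mp hA⟩

omit [NeZero M] in
theorem neg_mem_Gamma0 {A : SL(2, ℤ)} (hA : A ∈ Gamma0 M) : -A ∈ Gamma0 M := by
  have h : -A = (-1 : SL(2, ℤ)) * A := by rw [neg_one_mul]
  rw [h]
  exact (Gamma0 M).mul_mem (neg_one_mem_Gamma0 M) hA

theorem ker_theta : (theta M).ker = (PG1 M).subgroupOf (Gamma0 M) := by
  ext γ
  rw [MonoidHom.mem_ker, Subgroup.mem_subgroupOf, mem_PG1_iff, theta, MonoidHom.comp_apply,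
    QuotientGroup.mk'_apply, QuotientGroup.eq_one_iff, mem_pm,
    mem_Gamma1_iff_of_mem_Gamma0 M γ.2, mem_Gamma1_iff_of_mem_Gamma0 M (neg_mem_Gamma0 M γ.2)]
  have e1 : theta0 M γ = 1 ↔ (((γ : SL(2, ℤ)) 1 1 : ℤ) : ZMod M) = 1 := by
    rw [Units.ext_iff, coe_theta0, Units.val_one]
  have e2 : theta0 M γ = -1 ↔ (((-(γ : SL(2, ℤ)) : SL(2, ℤ)) 1 1 : ℤ) : ZMod M) = 1 := by
    rw [Units.ext_iff, coe_theta0, Units.val_neg, Units.val_one,
      Matrix.SpecialLinearGroup.coe_neg, Matrix.neg_apply, Int.cast_neg, neg_eq_iff_eq_neg]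
  rw [e1, e2]

/-- **`[SL₂(ℤ) : ±Γ₁(M)] = [SL₂(ℤ) : Γ₀(M)] · |(ℤ/M)ˣ / ±1|`** -/
theorem card_Q1 :
    Nat.card (Q1 M) = Nat.card (SL(2, ℤ) ⧸ Gamma0 M) * Nat.card ((ZMod M)ˣ ⧸ pm M) := by
  have h1 := Subgroup.relIndex_mul_index (PG1_le_Gamma0 M)
  have h2 : (PG1 M).relIndex (Gamma0 M) = Nat.card ((ZMod M)ˣ ⧸ pm M) := by
    rw [Subgroup.relIndex, ← ker_theta, Subgroup.index_ker,
      MonoidHom.range_eq_top.mpr (theta_surjective M)]
    exact Nat.card_congr Subgroup.topEquiv.toEquiv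
  rw [h2, Subgroup.index_eq_card, Subgroup.index_eq_card] at h1
  rw [← h1, mul_comm]

omit [NeZero M] in
theorem neg_one_ne_one (hM : 3 ≤ M) : (-1 : (ZMod M)ˣ) ≠ 1 := by
  intro h
  have h1 : ((-1 : (ZMod M)ˣ) : ZMod M) = ((1 : (ZMod M)ˣ) : ZMod M) := by rw [h]
  rw [Units.val_neg, Units.val_one] at h1
  have h2 : ((2 : ℕ) : ZMod M) = 0 := by
    have : (1 : ZMod M) + 1 = 0 := by
      nth_rewrite 1 [← h1]
      exact neg_add_cancel 1
    rw [← this]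
    norm_num
  have h3 := (ZMod.natCast_eq_zero_iff 2 M).mp h2
  have := Nat.le_of_dvd (by norm_num) h3
  omega

theorem two_mul_card_quot (hM : 3 ≤ M) : 2 * Nat.card ((ZMod M)ˣ ⧸ pm M) = M.totient := by
  have h1 := Subgroup.card_eq_card_quotient_mul_card_subgroup (pm M)
  have h2 : Nat.card (pm M) = 2 := by
    rw [Nat.card_zpowers]
    exact orderOf_eq_prime (by rw [neg_one_sq]) (neg_one_ne_one M hM)
  rw [h2, Nat.card_eq_fintype_card, ZMod.card_units_eq_totient] at h1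
  rw [h1, mul_comm]

end Fermat.Agent.S48.B.B1.Degree1.Index
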